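import Fermat.Agent.RIB.Rho.Main
import Fermat.Agent.ML.Main.Ctx

/-!
# ML / Low / Rho / Main : port of `RIB/Rho/Main.lean` from `ECtx` to `MCtx`

* `MCtx.two_ne_zero`
* `rhoOut` : block (B4, RHO) `RhoOut L p S θ rbar0` for `C : MCtx p T θ rbar0` (`p` odd, `p ∣ L` allowed).
-/

set_option autoImplicit false
set_option linter.unusedSectionVars false

noncomputable section

open AlgebraicCurve ModularCurve Module

namespace Fermat.Agent.ML

local notation "Qbar" => AlgebraicClosure ℚ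
local notation "GQ" => (AlgebraicClosure ℚ ≃ₐ[ℚ] AlgebraicClosure ℚ)
local notation "M₂" => Matrix (Fin 2) (Fin 2)

variable {p : ℕ} [Fact p.Prime] {T : Finset ℕ} {θ : ℕ → ℤ} {rbar0 : GQ →* M₂ (ZMod p)}

theorem MCtx.two_ne_zero (C : MCtx p T θ rbar0) : (2 : ZMod p) ≠ 0 := by
  intro h
  have h' : ((2 : ℕ) : ZMod p) = 0 := by exact_mod_cast h
  rw [ZMod.natCast_eq_zero_iff] at h'
  have hp : p.Prime := Fact.out
  exact C.hp2 ((Nat.prime_dvd_prime_iff_eq hp Nat.prime_two).1 h')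

end Fermat.Agent.ML

namespace Fermat.Agent.ML.Low

open Fermat.Agent.RIB Fermat.Agent.RIB.Rho
open Fermat.Agent.GAL Fermat.Agent.GAL.PC Fermat.Agent.TW.TR

local notation "Qbar" => AlgebraicClosure ℚ
local notation "GQ" => (AlgebraicClosure ℚ ≃ₐ[ℚ] AlgebraicClosure ℚ)
local notation "M₂" => Matrix (Fin 2) (Fin 2)

variable {p : ℕ} [Fact p.Prime] {T : Finset ℕ} {θ : ℕ → ℤ} {rbar0 : GQ →* M₂ (ZMod p)}

/-- **(B4, RHO)** at any level `L` whose primes are in `S ⊇ T`. -/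
theorem rhoOut (C : MCtx p T θ rbar0) (S : Finset ℕ) (hTS : T ⊆ S) (L : ℕ) [NeZero L]
    (hL : ∀ r : ℕ, r.Prime → r ∣ L * p → r ∈ S) (hW : WS L p (↑S : Set ℕ) θ ≠ ⊥) :
    RhoOut L p (↑S : Set ℕ) θ rbar0 := by
  obtain ⟨σ₀, τ₀, u0, hu0, hnf⟩ := C.nf
  have hp : p.Prime := Fact.out
  obtain ⟨R, iC, iA, iM, iT, iF, t, ρ, Φ, h1, h2, h3, h4, h5, h6, h7, ⟨θ', hθ', hθn⟩, h8⟩ :=
    exists_rho_tors (V := ↥(WS L p (↑S : Set ℕ) θ)) (m := p) (WS L p (↑S : Set ℕ) θ).subtype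
      Subtype.val_injective (fun _ _ => rfl) hp (j := 1) (pow_one p).symm (dvd_refl p) S hL θ
      (fun r hr v => (mem_WS_iff.1 v.2).2 r (fun h => hr (Finset.mem_coe.1 h)))
      rbar0 C.cont (fun r hr hrS => C.frob r hr (fun h => hrS (hTS h)))
      (inv_mul_cancel₀ C.two_ne_zero) complexConjugation_mul_self
      (chiM_complexConjugation p) hu0
  -- `R` is non trivial
  haveI hVn : Nontrivial ↥(WS L p (↑S : Set ℕ) θ) := (AddSubgroup.nontrivial_iff_ne_bot _).2 hW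
  haveI hRn : Nontrivial R := by
    rcases subsingleton_or_nontrivial R with hs | hn
    · exfalso
      obtain ⟨v, hv⟩ := exists_ne (0 : ↥(WS L p (↑S : Set ℕ) θ))
      apply hv
      calc v = (1 : R) • v := (one_smul R v).symm
        _ = (0 : R) • v := by rw [Subsingleton.elim (1 : R) 0]
        _ = 0 := zero_smul R v
    · exact hn
  obtain ⟨π, hπt, -, hπ0, hπu⟩ := exists_augmentation (k := ZMod p) t
    (fun g => (rbar0 g).trace) h2 (fun g => by
      have := hθn g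
      rwa [hθ', map_intCast])
  haveI iL : IsLocalRing R := isLocalRing_of_augmentation π hπu
  refine ⟨R, iC, iL, iA, iM, iT, π, ρ, Φ, ⟨h6, fun g => h5 g, fun g => ?_, ?_, h3⟩⟩
  · have := (h8 (ZMod p) (π : R →+* ZMod p) (RingHom.id _) (fun x hx => (hπ0 x).2 hx) g).2
    rw [hnf g]
    refine this.trans ?_
    ext i j
    rfl
  · have : (fun g : GQ => (ρ g).trace) = t := funext h4
    rw [this]
    exact h2

end Fermat.Agent.ML.Low
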