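import Fermat.Agent.RIB.Rho.Tame
import Fermat.Agent.ML.Low.Rho.Main

/-!
# ML / Low / Rho / Tame : port of the `ECtx` part of `RIB/Rho/Tame.lean` to `MCtx`

* `rhoOrd` : `τ ^ (p ^ ν) • x = x` for `τ ∈ I_l`, `x ∈ thetaPart N p S θ`, `p^ν ∥ l - 1`, `θ l ^ 2 - 4` prime to `p`.
* `unitStep` : `(l+1)² - T_l²` is injective on the `p`-torsion of `thetaPart L p S θ`.
-/

set_option autoImplicit false
set_option linter.unusedSectionVars false
set_option linter.style.haveILetI false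

noncomputable section

open AlgebraicCurve ModularCurve Module

namespace Fermat.Agent.ML.Low

open Fermat.Agent.RIB Fermat.Agent.RIB.Rho
open Fermat.Agent.GAL Fermat.Agent.GAL.PC Fermat.Agent.TW.TR

local notation "Qbar" => AlgebraicClosure ℚ
local notation "GQ" => (AlgebraicClosure ℚ ≃ₐ[ℚ] AlgebraicClosure ℚ)
local notation "M₂" => Matrix (Fin 2) (Fin 2)

variable {p : ℕ} [Fact p.Prime] {T : Finset ℕ} {θ : ℕ → ℤ} {rbar0 : GQ →* M₂ (ZMod p)}

/-- **(RHO-ord)** -/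
theorem rhoOrd (C : MCtx p T θ rbar0) (S : Finset ℕ) (hTS : T ⊆ S) (N : ℕ) [NeZero N]
    (hN : ∀ r : ℕ, r.Prime → r ∣ N * p → r ∈ S) {l ν : ℕ} (hl : l.Prime) (hlT : l ∉ T)
    (hν : 1 ≤ ν) (hdvd : p ^ ν ∣ l - 1) (hex : ¬ p ^ (ν + 1) ∣ l - 1)
    (hdisc : IsCoprime (p : ℤ) (θ l ^ 2 - 4)) {A : ValuationSubring Qbar}
    (hA : A.LiesOverPrime l) :
    ∀ τ ∈ A.inertiaSubgroupIn ℚ, ∀ x ∈ thetaPart N p (↑S : Set ℕ) θ, τ ^ (p ^ ν) • x = x := by
  intro τ hτ x hx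
  have hp : p.Prime := Fact.out
  have hl2 : l ≠ 2 := fun h => hlT (h ▸ C.two_mem)
  have hlp : l ≠ p := fun h => hlT (h ▸ C.p_mem)
  obtain ⟨j, hj⟩ := hx.1
  set m : ℕ := p ^ (j + 1) with hm
  haveI : NeZero m := ⟨pow_ne_zero _ hp.ne_zero⟩
  have hxm : x ∈ thTors N p m (↑S : Set ℕ) θ :=
    ⟨hx, by rw [hm, pow_succ, mul_comm, mul_smul, hj, smul_zero]⟩
  obtain ⟨σ₀, τ₀, u0, hu0, hnf⟩ := C.nf
  obtain ⟨R, iC, iA, iM, iT, iF, t, ρ, Φ, h1, h2, h3, h4, h5, h6, h7, -, h8⟩ :=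
    exists_rho_tors (V := ↥(thTors N p m (↑S : Set ℕ) θ)) (m := m)
      (thTors N p m (↑S : Set ℕ) θ).subtype
      Subtype.val_injective (fun _ _ => rfl) hp (j := j + 1) hm
      (dvd_pow_self p (Nat.succ_ne_zero j)) S hN θ
      (fun r hr v => v.2.1.2 r (fun h => hr (Finset.mem_coe.1 h)))
      rbar0 C.cont (fun r hr hrS => C.frob r hr (fun h => hrS (hTS h)))
      (inv_mul_cancel₀ C.two_ne_zero) complexConjugation_mul_self
      (chiM_complexConjugation m) hu0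
  suffices hkey : ρ τ ^ (p ^ ν) = 1 by
    have := h6 (τ ^ (p ^ ν)) ⟨x, hxm⟩
    rw [map_pow, hkey, map_one] at this
    exact (congrArg Subtype.val this).symm
  rcases subsingleton_or_nontrivial R with hs | hn
  · exact Subsingleton.elim _ _
  set I : Ideal R := nilradical R with hI
  obtain ⟨K, hK⟩ : ∃ K : ℕ, I ^ K = ⊥ := IsNoetherianRing.isNilpotent_nilradical R
  have hpI : (p : R) ∈ I := by
    rw [hI, mem_nilradical]
    refine ⟨j + 1, ?_⟩
    rw [← Nat.cast_pow, ← hm, ← map_natCast (algebraMap (ZMod m) R), ZMod.natCast_self, map_zero]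
  have hItop : I ≠ ⊤ := by
    intro h
    have h1' : (1 : R) ∈ I := h ▸ Submodule.mem_top
    rw [hI, mem_nilradical] at h1'
    obtain ⟨n, hn'⟩ := h1'
    rw [one_pow] at hn'
    exact one_ne_zero hn'
  haveI : Nontrivial (R ⧸ I) := Ideal.Quotient.nontrivial_iff.2 hItop
  set κ : R →+* R ⧸ I := Ideal.Quotient.mk I with hκdef
  haveI : CharP (R ⧸ I) p := (CharP.charP_iff_prime_eq_zero hp).2 (by
    rw [← map_natCast κ]
    exact Ideal.Quotient.eq_zero_iff_mem.2 hpI)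
  set ψ : ZMod p →+* R ⧸ I := ZMod.castHom (dvd_refl p) (R ⧸ I) with hψ
  have hκ : ∀ x, IsNilpotent x → κ x = 0 := fun x hx =>
    Ideal.Quotient.eq_zero_iff_mem.2 (mem_nilradical.2 hx)
  have hmap : ∀ g, (ρ g).map κ = (rbar0 g).map ψ := fun g => by
    rw [hnf g]; exact (h8 (R ⧸ I) κ ψ hκ g).2
  have hent : ∀ σ ∈ A.inertiaSubgroupIn ℚ, ∀ a b, (ρ σ - 1) a b ∈ I := by
    intro σ hσ a b
    have e := hmap σ
    rw [C.unramT l hl hlT A hA σ hσ, Matrix.map_one ψ (map_zero ψ) (map_one ψ)] at e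
    have e2 : κ ((ρ σ - 1) a b) = 0 := by
      have e3 : κ (ρ σ a b) = (1 : M₂ (R ⧸ I)) a b := congrFun (congrFun e a) b
      have e4 : κ ((1 : M₂ R) a b) = (1 : M₂ (R ⧸ I)) a b :=
        congrFun (congrFun (Matrix.map_one κ (map_zero κ) (map_one κ)) a) b
      rw [Matrix.sub_apply, map_sub, e3, e4, sub_self]
    exact Ideal.Quotient.eq_zero_iff_mem.1 e2
  obtain ⟨φ, hφ⟩ := Fermat.Agent.S54.exists_isFrobeniusAt_of_liesOverPrime hl A hA
  have hFr : IsUnit (ρ φ) := (Group.isUnit φ).map ρ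
  have hlm : Nat.Coprime l m := by
    rw [hm]
    exact Nat.Coprime.pow_right _ ((Nat.coprime_primes hl hp).2 hlp)
  have hdiscU : IsUnit ((ρ φ).trace ^ 2 - 4 * (ρ φ).det) := by
    rw [← IsNilpotent.isUnit_quotient_mk_iff (I := I) ⟨K, hK⟩]
    have e1 : κ ((ρ φ).trace) = ψ ((θ l : ℤ) : ZMod p) := by
      rw [h4, (h8 (R ⧸ I) κ ψ hκ φ).1, (C.frob l hl hlT A hA φ hφ).1]
    have e2 : κ ((ρ φ).det) = ψ ((l : ℕ) : ZMod p) := by
      rw [h5, chiM_apply, cycloChar_of_isFrobeniusAt' m hl hlm hA hφ, map_natCast, map_natCast,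
        map_natCast]
    have e3 : Ideal.Quotient.mk I ((ρ φ).trace ^ 2 - 4 * (ρ φ).det) =
        ψ ((((θ l : ℤ) : ZMod p)) ^ 2 - 4 * ((l : ℕ) : ZMod p)) := by
      show κ _ = _
      rw [map_sub, map_pow, map_mul, e1, e2, map_sub, map_pow, map_mul, map_ofNat, map_ofNat]
    rw [e3]
    exact (IsUnit.mk0 _ (disc_ne_zero hl hν hdvd hdisc)).map ψ
  -- the tame relation
  let h : ↥(A.inertiaSubgroupIn ℚ) →* M₂ R := ρ.comp (Subgroup.subtype _)
  have hcont : ∃ F : IntermediateField ℚ Qbar, FiniteDimensional ℚ F ∧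
      ∀ σ : ↥(A.inertiaSubgroupIn ℚ), (∀ y ∈ F, (σ : GQ) y = y) → h σ = 1 := by
    obtain ⟨F, hF1, hF2⟩ := exists_level_torsion N m (NeZero.ne m)
    refine ⟨F, hF1, fun σ hσ => sub_eq_zero.1 (h7 _ fun v => ?_)⟩
    rw [map_sub, map_one, LinearMap.sub_apply]
    show Φ (ρ (σ : GQ)) v - v = 0
    rw [h6, sub_eq_zero]
    exact Subtype.ext (hF2 σ hσ v.1 v.2.2)
  have hK1 : I ^ (K + 1) = ⊥ := by rw [pow_succ, hK, Ideal.bot_mul]
  have htors : ∀ σ, h σ ^ (p ^ K) = 1 := by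
    intro σ
    have e := TameAlg.ent_pow_p_pow hpI (hent σ σ.2) K
    rw [hK1] at e
    exact sub_eq_zero.1 e.eq_zero
  have hrel0 := S56.tame_frob hl hA h hcont (p ^ K)
    (Nat.Coprime.pow_left _ ((Nat.coprime_primes hp hl).2 (Ne.symm hlp))) htors hφ ⟨τ, hτ⟩
    (S56.conj_mem_inertia hl hA hφ.mem_decompositionSubgroup hτ)
  have hrel : ρ φ * ρ τ = ρ τ ^ l * ρ φ := by
    have e : ρ (φ * τ * φ⁻¹) = ρ τ ^ l := hrel0
    rw [← e, ← map_mul, ← map_mul, inv_mul_cancel_right]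
  obtain ⟨c, hc⟩ := hdvd
  have hlv : l = p ^ ν * c + 1 := by
    have := hl.one_lt
    omega
  have hc' : ¬ p ∣ c := by
    rintro ⟨d, rfl⟩
    exact hex ⟨d, by rw [hc, pow_succ, mul_assoc]⟩
  exact TameAlg.pow_p_pow_eq_one hK hp hpI hlv hc' hFr hrel (hent τ hτ) hdiscU hν

/-- **(UNIT)** -/
theorem unitStep (C : MCtx p T θ rbar0) (S : Finset ℕ) (hTS : T ⊆ S) (L : ℕ) [NeZero L]
    (hL : ∀ r : ℕ, r.Prime → r ∣ L * p → r ∈ S) {l ν : ℕ} (hl : l.Prime) (hlT : l ∉ T)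
    (hlL : ¬ l ∣ L) (hν : 1 ≤ ν) (hdvd : p ^ ν ∣ l - 1)
    (hdisc : IsCoprime (p : ℤ) (θ l ^ 2 - 4)) :
    ∀ v ∈ thetaPart L p (↑S : Set ℕ) θ, p • v = 0 →
      ((l + 1) ^ 2) • v - heckeOperatorBar L ⟨l, hl⟩ (heckeOperatorBar L ⟨l, hl⟩ v) = 0 →
      v = 0 := by
  intro v hv hpv hU
  have hp : p.Prime := Fact.out
  have hlp : l ≠ p := fun h => hlT (h ▸ C.p_mem)
  have hlLp : ¬ l ∣ L * p := fun h => (hl.dvd_mul.1 h).elim hlL fun h' =>
    hlp ((Nat.prime_dvd_prime_iff_eq hl hp).1 h')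
  obtain ⟨A, hA⟩ := Fermat.Agent.S54.exists_liesOverPrime hl
  obtain ⟨φ, hφ⟩ := Fermat.Agent.S54.exists_isFrobeniusAt_of_liesOverPrime hl A hA
  obtain ⟨θ', hθ', hθn⟩ := exists_theta (V := ↥(WS L p (↑S : Set ℕ) θ)) (m := p)
    (WS L p (↑S : Set ℕ) θ).subtype (fun _ _ => rfl) hp (j := 1) (pow_one p).symm S hL θ
    rbar0 C.cont (fun r hr hrS => C.frob r hr (fun h => hrS (hTS h)))
    (fun r hr v => (mem_WS_iff.1 v.2).2 r (fun h => hr (Finset.mem_coe.1 h)))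
    Subtype.val_injective
  set V := ↥(WS L p (↑S : Set ℕ) θ) with hV
  set Tl : Module.End (ZMod p) V := tOp V (chiM p) φ with hTl
  have hχ : chiM p φ = ((l : ℕ) : ZMod p) := by
    rw [chiM_apply]
    exact cycloChar_of_isFrobeniusAt' p hl ((Nat.coprime_primes hl hp).2 hlp) hA hφ
  have hcoe : ∀ w : V, ((Tl w : V) : JZero L) = heckeOperatorBar L ⟨l, hl⟩ (w : JZero L) := by
    intro w
    rw [SS.hecke_eq_frob' (SS.es_all L p).2 ⟨l, hl⟩ hlLp hA hφ w.1 w.2.1.1, hTl, tOp_apply, hχ,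
      Nat.cast_smul_eq_nsmul]
    rfl
  set c0 : ZMod p := ((θ' φ : ℤ) : ZMod p) with hc0
  have hc0' : c0 = ((θ l : ℤ) : ZMod p) := by
    rw [hc0, ← hθ', (C.frob l hl hlT A hA φ hφ).1]
  set f : Module.End (ZMod p) V := Tl - algebraMap (ZMod p) (Module.End (ZMod p) V) c0 with hf
  have hfn : IsNilpotent f := hθn φ
  have hl1 : ((l : ℕ) : ZMod p) = 1 := by
    have h1 : p ∣ l - 1 := (dvd_pow_self p (by omega)).trans hdvd
    have h2 : ((l - 1 : ℕ) : ZMod p) = 0 := (ZMod.natCast_eq_zero_iff _ _).2 h1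
    rw [Nat.cast_sub hl.one_lt.le, Nat.cast_one, sub_eq_zero] at h2
    exact h2
  set a : ZMod p := (((l : ℕ) : ZMod p) + 1) ^ 2 - c0 ^ 2 with ha
  have ha0 : a ≠ 0 := by
    have := disc_ne_zero (p := p) (θ := θ) hl hν hdvd hdisc
    rw [hl1] at this
    rw [ha, hl1, hc0']
    intro h
    apply this
    linear_combination -h
  set al := algebraMap (ZMod p) (Module.End (ZMod p) V) with hal
  have hUe : al ((((l : ℕ) : ZMod p) + 1) ^ 2) - Tl * Tl = al a + -(f * (f + al (2 * c0))) := by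
    have e : Tl = f + al c0 := by rw [hf]; abel
    have hcm : f * al c0 = al c0 * f := (Algebra.commutes c0 f).symm
    rw [e, ha, map_sub, map_mul, map_pow, map_ofNat]
    simp only [mul_add, add_mul, pow_two, hcm, two_mul, map_mul]
    abel
  have hnil2 : IsNilpotent (-(f * (f + al (2 * c0)))) := by
    refine IsNilpotent.neg ?_
    have hcm : Commute f (f + al (2 * c0)) :=
      (Commute.refl f).add_right (Algebra.commutes _ f).symm
    exact hcm.isNilpotent_mul_right hfn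
  have hunit : IsUnit (al ((((l : ℕ) : ZMod p) + 1) ^ 2) - Tl * Tl) := by
    rw [hUe]
    exact hnil2.isUnit_add_left_of_commute ((IsUnit.mk0 a ha0).map al)
      (Algebra.commutes a _).symm
  have hinj := ((Module.End.isUnit_iff _).1 hunit).1
  have hz : (al ((((l : ℕ) : ZMod p) + 1) ^ 2) - Tl * Tl) (⟨v, hv, hpv⟩ : V) = 0 := by
    apply Subtype.ext
    rw [LinearMap.sub_apply, Module.End.mul_apply, hal, Module.algebraMap_end_apply]
    have e1 : ((((l : ℕ) : ZMod p) + 1) ^ 2 : ZMod p) = (((l + 1) ^ 2 : ℕ) : ZMod p) := by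
      push_cast; rfl
    rw [e1, Nat.cast_smul_eq_nsmul]
    show ((l + 1) ^ 2) • v - ((Tl (Tl ⟨v, hv, hpv⟩) : V) : JZero L) = 0
    rw [hcoe, hcoe]
    exact hU
  have := hinj (hz.trans (map_zero _).symm)
  exact congrArg Subtype.val this

end Fermat.Agent.ML.Low
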