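import Fermat.Agent.RIB.Rho.TrNil
import Fermat.Agent.ML.Low.Step

/-!
# ML / Low / TrNil : port of the `ECtx`-part of `RIB/Rho/TrNil.lean` to `MCtx`
-/

set_option autoImplicit false

noncomputable section

open AlgebraicCurve ModularCurve Polynomial

namespace Fermat.Agent.ML

open Fermat.Agent.RIB

local notation "Qbar" => AlgebraicClosure ℚ
local notation "GQ" => (AlgebraicClosure ℚ ≃ₐ[ℚ] AlgebraicClosure ℚ)

variable {p : ℕ} [Fact p.Prime] {T : Finset ℕ} {θ : ℕ → ℤ}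
  {rbar0 : GQ →* Matrix (Fin 2) (Fin 2) (ZMod p)} {S : Finset ℕ} {L l ν : ℕ} [NeZero L]

/-- `(T_l - θ l)^N x = 0` on the `θ`-part, also for the primes `l ∈ S`, `l ∉ T`, `l ∤ L`. -/
theorem MCtx.hecke_sub_nil (EC : MCtx p T θ rbar0) (hTS : T ⊆ S)
    (hS : ∀ r : ℕ, r.Prime → r ∣ L * p → r ∈ S) (hl : l.Prime) (hlT : l ∉ T) (hlL : ¬ l ∣ L)
    {x : JZero L} (hx : x ∈ thetaPart L p (↑S : Set ℕ) θ) :
    ∃ N : ℕ, (hk L θ ⟨l, hl⟩ ^ N) x = 0 := by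
  have hp : p.Prime := Fact.out
  have hlLp : ¬ l ∣ L * p := fun h => by
    rcases (Nat.Prime.dvd_mul hl).1 h with h | h
    · exact hlL h
    · exact hlT ((Nat.prime_dvd_prime_iff_eq hl hp).1 h ▸ EC.p_mem)
  exact TrNil.hecke_sub_nil hp T S hTS hS θ rbar0 EC.cont EC.frob hl hlLp hlT hx

namespace Low

/-- **(UNIT)** -/
theorem unit_step' (EC : MCtx p T θ rbar0) (hl : l.Prime) (hlT : l ∉ T) (hTS : T ⊆ S)
    (hlL : ¬ l ∣ L) (hS : ∀ r : ℕ, r.Prime → r ∣ L * l * l * p → r ∈ S) (hν : 1 ≤ ν)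
    (hdvd : p ^ ν ∣ l - 1) (disc : IsCoprime (p : ℤ) (θ l ^ 2 - 4)) :
    ∀ v ∈ thetaPart L p (↑S : Set ℕ) θ, p • v = 0 →
      ((l + 1) ^ 2) • v - heckeOperatorBar L ⟨l, hl⟩ (heckeOperatorBar L ⟨l, hl⟩ v) = 0 →
      v = 0 := by
  have hp : p.Prime := Fact.out
  have hlLp : ¬ l ∣ L * p := fun h => by
    rcases (Nat.Prime.dvd_mul hl).1 h with h | h
    · exact hlL h
    · exact hlT ((Nat.prime_dvd_prime_iff_eq hl hp).1 h ▸ EC.p_mem)
  have hl1 : (p : ℤ) ∣ (l : ℤ) - 1 := by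
    have h1 : p ∣ l - 1 := (dvd_pow_self p (by omega)).trans hdvd
    have h2 : ((l - 1 : ℕ) : ℤ) = (l : ℤ) - 1 := by
      rw [Nat.cast_sub hl.one_lt.le, Nat.cast_one]
    rw [← h2]
    exact_mod_cast h1
  exact TrNil.unit_of_disc hp T S hTS
    (fun r hr hd => hS r hr (by
      have : L * l * l * p = (L * p) * (l * l) := by ring
      rw [this]; exact Dvd.dvd.mul_right hd _)) θ rbar0 EC.cont EC.frob hl hlLp hlT hl1 disc

end Low

end Fermat.Agent.ML
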