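import Fermat.Agent.ML.Low.Rho.Tame

/-!
# ML / Low / Rho / OrdC : port of `RIB/Rho/OrdC.lean` (`rho_ord_c`) to `MCtx`

`RIB.OrdC.rho_ord_c` has the same statement as `RIB.Rho.rhoOrd`; the port is `Low.rhoOrd`.
-/

set_option autoImplicit false

noncomputable section

open AlgebraicCurve ModularCurve Module

namespace Fermat.Agent.ML.Low

open Fermat.Agent.RIB

local notation "Qbar" => AlgebraicClosure ℚ
local notation "GQ" => (AlgebraicClosure ℚ ≃ₐ[ℚ] AlgebraicClosure ℚ)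
local notation "M₂" => Matrix (Fin 2) (Fin 2)

variable {p : ℕ} [Fact p.Prime] {T : Finset ℕ} {θ : ℕ → ℤ} {rbar0 : GQ →* M₂ (ZMod p)}

/-- **(RHO-ord)** -/
theorem rho_ord_c (C : MCtx p T θ rbar0) (S : Finset ℕ) (hTS : T ⊆ S) (L : ℕ) [NeZero L]
    (hL : ∀ r : ℕ, r.Prime → r ∣ L * p → r ∈ S) {l ν : ℕ} (hl : l.Prime) (hlT : l ∉ T)
    (hν : 1 ≤ ν) (hdvd : p ^ ν ∣ l - 1) (hex : ¬ p ^ (ν + 1) ∣ l - 1)
    (disc : IsCoprime (p : ℤ) (θ l ^ 2 - 4)) {A : ValuationSubring Qbar}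
    (hA : A.LiesOverPrime l) :
    ∀ τ ∈ A.inertiaSubgroupIn ℚ, ∀ x ∈ thetaPart L p (↑S : Set ℕ) θ, τ ^ (p ^ ν) • x = x :=
  rhoOrd C S hTS L hL hl hlT hν hdvd hex disc hA

end Fermat.Agent.ML.Low
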